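/-
S26lib / Iface  (helper7, architect)  --  Project K (S26): the ABSTRACT interface

`#A[n](K) = n^(2g)` along helper2's divisorial route.  This file fixes the abstract ("thin Weil
model") objects and the statement of the GROWTH THEOREM (P2); it imports Mathlib only.

* `DivModel K F` : a family of normalised discrete valuations (`ord P : F → ℤ`, convention
  `ord P 0 = 0`) of a field `F/K` with finite character = the prime divisors of a normal variety
  with function field `F`.
* `DivModel.L E` : the Riemann-Roch space `{x | x = 0 ∨ ∀ P, -E P ≤ ord P x}` of `E : ι → ℤ`.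
* `DivModel.regOff D` : the `K`-subalgebra of the functions regular off the support of `D`.
* `GrowthHyp M D g` : the hypotheses on an effective divisor `D` with affine complement on a
  complete normal variety of dimension `g`.
* `FinMapHyp M ν` : the hypotheses on a finite separable self-map `ν : F →ₐ[K] F` (the comorphism
  of `[n]`).
* `GrowthStatement` (P2): `ν^* D = n² D + div h₀` ⟹ `[F : ν F] = n ^ (2 g)`.
-/
import Mathlib

set_option autoImplicit false

noncomputable section

namespace Fermat.Agent.S26lib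

universe u

/-- **A thin Weil model**: a family of normalised discrete valuations of `F/K` with finite
character (the prime divisors of a normal `K`-variety with function field `F`).  Convention
`ord P 0 = 0`. -/
structure DivModel (K F : Type u) [Field K] [Field F] [Algebra K F] where
  /-- the prime divisors -/
  ι : Type u
  /-- the order functions -/
  ord : ι → F → ℤ
  ord_zero : ∀ P, ord P 0 = 0
  ord_mul : ∀ (P : ι) {x y : F}, x ≠ 0 → y ≠ 0 → ord P (x * y) = ord P x + ord P y
  ord_add : ∀ (P : ι) {x y : F}, x ≠ 0 → y ≠ 0 → x + y ≠ 0 →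
    min (ord P x) (ord P y) ≤ ord P (x + y)
  ord_const : ∀ (P : ι) (c : K), ord P (algebraMap K F c) = 0
  ord_surj : ∀ P : ι, ∃ x : F, x ≠ 0 ∧ ord P x = 1
  finite_supp : ∀ x : F, x ≠ 0 → {P | ord P x ≠ 0}.Finite

namespace DivModel

variable {K F : Type u} [Field K] [Field F] [Algebra K F] (M : DivModel K F)

theorem ord_one (P : M.ι) : M.ord P 1 = 0 := by
  have h := M.ord_mul P (one_ne_zero : (1 : F) ≠ 0) one_ne_zero
  rw [one_mul] at h
  omega

theorem ord_inv (P : M.ι) {x : F} (hx : x ≠ 0) : M.ord P x⁻¹ = - M.ord P x := by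
  have h := M.ord_mul P hx (inv_ne_zero hx)
  rw [mul_inv_cancel₀ hx, M.ord_one] at h
  omega

theorem ord_neg (P : M.ι) (x : F) : M.ord P (-x) = M.ord P x := by
  rcases eq_or_ne x 0 with rfl | hx
  · rw [neg_zero]
  · have h1 : M.ord P (-1 : F) = 0 := by
      have h := M.ord_mul P (neg_ne_zero.2 (one_ne_zero : (1 : F) ≠ 0))
        (neg_ne_zero.2 (one_ne_zero : (1 : F) ≠ 0))
      rw [neg_mul_neg, one_mul, M.ord_one] at h
      omega
    have h := M.ord_mul P (neg_ne_zero.2 (one_ne_zero : (1 : F) ≠ 0)) hx
    rw [neg_one_mul] at h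
    omega

/-- the Riemann-Roch space `L(E) = {x | div x + E ≥ 0}` -/
def L (E : M.ι → ℤ) : Submodule K F where
  carrier := {x | x = 0 ∨ ∀ P, -E P ≤ M.ord P x}
  zero_mem' := Or.inl rfl
  add_mem' := by
    rintro x y (rfl | hx) (rfl | hy)
    · exact Or.inl (add_zero 0)
    · rw [zero_add]; exact Or.inr hy
    · rw [add_zero]; exact Or.inr hx
    · rcases eq_or_ne x 0 with rfl | hx0
      · rw [zero_add]; exact Or.inr hy
      rcases eq_or_ne y 0 with rfl | hy0
      · rw [add_zero]; exact Or.inr hx
      rcases eq_or_ne (x + y) 0 with h0 | h0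
      · exact Or.inl h0
      · exact Or.inr fun P => le_trans (le_min (hx P) (hy P)) (M.ord_add P hx0 hy0 h0)
  smul_mem' := by
    rintro c x (rfl | hx)
    · exact Or.inl (smul_zero c)
    · rcases eq_or_ne c 0 with rfl | hc
      · exact Or.inl (zero_smul K x)
      rcases eq_or_ne x 0 with rfl | hx0
      · exact Or.inl (smul_zero c)
      refine Or.inr fun P => ?_
      rw [Algebra.smul_def, M.ord_mul P (by simpa using hc) hx0, M.ord_const, zero_add]
      exact hx P

theorem mem_L {E : M.ι → ℤ} {x : F} : x ∈ M.L E ↔ x = 0 ∨ ∀ P, -E P ≤ M.ord P x := Iff.rfl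

/-- the `k`-th multiple of an effective divisor, as an integer-valued function -/
def nsmulDiv (k : ℕ) (D : M.ι → ℕ) : M.ι → ℤ := fun P => (k : ℤ) * (D P : ℤ)

/-- `a_D(k) = dim_K L(kD)` (`0` if infinite-dimensional) -/
def dimL (D : M.ι → ℕ) (k : ℕ) : ℕ := Module.finrank K (M.L (M.nsmulDiv k D))

/-- the functions regular off the support of `D` -/
def regOff (D : M.ι → ℕ) : Subalgebra K F where
  carrier := {x | x = 0 ∨ ∀ P, D P = 0 → 0 ≤ M.ord P x}
  zero_mem' := Or.inl rfl
  one_mem' := Or.inr fun P _ => (M.ord_one P).ge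
  add_mem' := by
    rintro x y (rfl | hx) (rfl | hy)
    · exact Or.inl (add_zero 0)
    · rw [zero_add]; exact Or.inr hy
    · rw [add_zero]; exact Or.inr hx
    · rcases eq_or_ne x 0 with rfl | hx0
      · rw [zero_add]; exact Or.inr hy
      rcases eq_or_ne y 0 with rfl | hy0
      · rw [add_zero]; exact Or.inr hx
      rcases eq_or_ne (x + y) 0 with h0 | h0
      · exact Or.inl h0
      · exact Or.inr fun P hP =>
          le_trans (le_min (hx P hP) (hy P hP)) (M.ord_add P hx0 hy0 h0)
  mul_mem' := by
    rintro x y (rfl | hx) (rfl | hy)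
    · exact Or.inl (mul_zero 0)
    · exact Or.inl (zero_mul y)
    · exact Or.inl (mul_zero x)
    · rcases eq_or_ne x 0 with rfl | hx0
      · exact Or.inl (zero_mul y)
      rcases eq_or_ne y 0 with rfl | hy0
      · exact Or.inl (mul_zero x)
      refine Or.inr fun P hP => ?_
      rw [M.ord_mul P hx0 hy0]
      exact add_nonneg (hx P hP) (hy P hP)
  algebraMap_mem' c := Or.inr fun P _ => (M.ord_const P c).ge

/-- the valuation ring of a prime divisor, as a set -/
def integers (P : M.ι) : Set F := {x | x = 0 ∨ 0 ≤ M.ord P x}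

/-- **(P2, hypotheses on `D`)**: `D` is an effective divisor with finite support and AFFINE
complement on a COMPLETE NORMAL variety of dimension `g`:
* `fg`, `frac`, `trdeg` : the ring `B` of the functions regular off `D` is a finitely generated
  `K`-algebra with fraction field `F` of transcendence degree `g`;
* `centre` (FINITE-CANDIDATE form, v2): there is a FINITE set `T` of non-zero functions such that
  every valuation ring `W ⊇ K` of `F` which does NOT contain `B` admits some `t ∈ T` with
  `y t^k ∈ W` for all `y ∈ L(kD)` and all `k` (`W` has its centre `z` on `Supp D`, which is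
  quasi-compact: finitely many affine charts `V_j`, `t_j` a non-zero element of the ideal of
  `Supp D ∩ V_j`; normality: `O_z = ⋂_{P ∋ z} O_P`). -/
structure GrowthHyp (D : M.ι → ℕ) (g : ℕ) : Prop where
  finite_supp : {P | D P ≠ 0}.Finite
  fg : (M.regOff D).FG
  frac : ∀ x : F, ∃ a ∈ M.regOff D, ∃ b ∈ M.regOff D, b ≠ 0 ∧ x = a / b
  trdeg : Algebra.trdeg K F = g
  centre : ∃ T : Finset F, (∀ t ∈ T, t ≠ 0) ∧
    ∀ W : ValuationSubring F, (∀ c : K, algebraMap K F c ∈ W) →
      ¬ (∀ x ∈ M.regOff D, x ∈ W) →
        ∃ t ∈ T, ∀ (k : ℕ) (y : F), y ∈ M.L (M.nsmulDiv k D) → y * t ^ k ∈ W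

/-- **(P2, hypotheses on `ν`)**: `ν : F →ₐ[K] F` is the comorphism of a FINITE SEPARABLE
self-map `φ` of the variety (`φ = [n]`):
* `img P'` is the image prime divisor of `P'`, `e P'` the ramification index:
  `ord P' (ν x) = e P' * ord (img P') x`;
* `ext` : EVERY valuation ring of `F` extending (through `ν`) the valuation ring of a prime
  divisor `P` is the valuation ring of a prime divisor `P'` over `P` (finiteness of `φ`). -/
structure FinMapHyp (ν : F →ₐ[K] F) (img : M.ι → M.ι) (e : M.ι → ℕ) : Prop where
  finite : FiniteDimensional ν.fieldRange F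
  separable : Algebra.IsSeparable ν.fieldRange F
  e_pos : ∀ P', 0 < e P'
  ord_comp : ∀ (P' : M.ι) (x : F), M.ord P' (ν x) = (e P' : ℤ) * M.ord (img P') x
  ext : ∀ (P : M.ι) (W : ValuationSubring F),
    (∀ x : F, ν x ∈ W ↔ x ∈ M.integers P) →
      ∃ P' : M.ι, img P' = P ∧ ∀ x : F, x ∈ W ↔ x ∈ M.integers P'

/-- the pulled-back divisor `ν^* D = ∑ e(P') D(img P') P'` -/
def pullDiv (img : M.ι → M.ι) (e : M.ι → ℕ) (D : M.ι → ℕ) : M.ι → ℕ :=
  fun P' => e P' * D (img P')

end DivModel

/-- **(P2) THE GROWTH THEOREM.**  On a complete normal variety of dimension `g` over an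
algebraically closed field, with an effective divisor `D` with affine complement: a finite
separable self-map `ν` with `ν^* D = n² D + div h₀`, `n ≥ 2`, has degree `n ^ (2 g)`.
(`n = 1` is excluded on purpose: coarse growth bounds do not determine the degree there, and
`[1] = id` is trivial directly.) -/
def GrowthStatement : Prop :=
  ∀ (K F : Type u) [Field K] [Field F] [Algebra K F] [IsAlgClosed K] (M : DivModel K F)
    (D : M.ι → ℕ) (g : ℕ), M.GrowthHyp D g →
    ∀ (ν : F →ₐ[K] F) (img : M.ι → M.ι) (e : M.ι → ℕ), M.FinMapHyp ν img e →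
    ∀ (n : ℕ), 2 ≤ n → (∃ h₀ : F, h₀ ≠ 0 ∧
        ∀ P' : M.ι, (M.pullDiv img e D P' : ℤ) = (n : ℤ) ^ 2 * (D P' : ℤ) + M.ord P' h₀) →
      Module.finrank ν.fieldRange F = n ^ (2 * g)

end Fermat.Agent.S26lib
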